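import Mathlib
import Fermat.Agent.LT.H556.A0
import Fermat.Agent.LT.T2.H472.LocCont

/-!
# Row LT, tower T2 -- tool (helper166, OFF-MAIN): elements supported at one infinite place

VERBATIM COPY (names `…878` renamed `…166`) of sections 1 -- 4 of helper878's
`LT/T2/H878/LocalAlg.lean` (origin/helper878@1d1d8b1df), which do not use any tower Spec: the
copy imports Mathlib, `A0` and helper472's `LocCont` (A0 only), so it does not depend on the
versions of the Specs.  All credit to helper878.

* `exists_local166`: every invertible complex matrix (real at a real place) is the component at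
  `w` of an element of `GL₂(𝔸_K)` supported at `w`;
* `G_ext166`, `ext_of_sameAway166`, `local_unique166`: an element of `GL₂(𝔸_K)` is determined by
  its components;
* `isArchCompact_inv166`, `isArchCompact_mul166`, `exists_archCompact166`: the compact group at
  `w`.
-/

set_option autoImplicit false

open IsDedekindDomain NumberField
open scoped Matrix

noncomputable section

namespace Fermat.Agent.LT.T2.H166

open Fermat.Agent.LT.H556.A0
open Fermat.Agent.LT.T2.H472

variable {K : Type} [Field K] [NumberField K]

/-! ## 1. Components -/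

/-- Two matrices over the adeles with the same components are equal. -/
theorem adlMat_ext166 {A B : Matrix (Fin 2) (Fin 2) (Adl K)}
    (hinf : ∀ u : InfinitePlace K, (cInf472 u).mapMatrix A = (cInf472 u).mapMatrix B)
    (hfin : ∀ v : HeightOneSpectrum (𝓞 K), (cFin472 v).mapMatrix A = (cFin472 v).mapMatrix B) :
    A = B := by
  funext i j
  refine Prod.ext ?_ ?_
  · funext u
    exact congrFun (congrFun (hinf u) i) j
  · refine FiniteAdeleRing.ext K fun v => ?_
    exact congrFun (congrFun (hfin v) i) j

theorem infComp_eq_map166 (w : InfinitePlace K) (g : G K) :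
    infComp w g = (InfinitePlace.Completion.extensionEmbedding w).mapMatrix
      ((cInf472 w).mapMatrix (g : Matrix (Fin 2) (Fin 2) (Adl K))) := rfl

/-- An element of `GL₂(𝔸_K)` is determined by its components. -/
theorem G_ext166 {g g' : G K} (hinf : ∀ u : InfinitePlace K, infComp u g = infComp u g')
    (hfin : ∀ v : HeightOneSpectrum (𝓞 K), finComp v g = finComp v g') : g = g' := by
  apply Units.ext
  apply adlMat_ext166
  · intro u
    funext i j
    have h := congrFun (congrFun (hinf u) i) j
    exact (InfinitePlace.Completion.extensionEmbedding u).injective h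
  · intro v
    exact hfin v

theorem infComp_mul166 (w : InfinitePlace K) (g h : G K) :
    infComp w (g * h) = infComp w g * infComp w h := by
  rw [infComp_eq472, infComp_eq472, infComp_eq472, Units.val_mul, map_mul]

theorem finComp_mul166 (v : HeightOneSpectrum (𝓞 K)) (g h : G K) :
    finComp v (g * h) = finComp v g * finComp v h := by
  rw [finComp_eq472, finComp_eq472, finComp_eq472, Units.val_mul, map_mul]

theorem infComp_one166 (w : InfinitePlace K) : infComp w (1 : G K) = 1 := by
  rw [infComp_eq472, Units.val_one, map_one]

theorem finComp_one166 (v : HeightOneSpectrum (𝓞 K)) : finComp v (1 : G K) = 1 := by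
  rw [finComp_eq472, Units.val_one, map_one]

theorem infComp_of_triv166 {u : InfinitePlace K} {g : G K} (h : TrivAtInf u g) :
    infComp u g = 1 := by
  rw [infComp_eq_map166, (trivAtInf_iff472 u g).1 h, map_one]

/-- At a real place the components are real. -/
theorem infComp_real166 {w : InfinitePlace K} (hw : w.IsReal) (g : G K) (i j : Fin 2) :
    (infComp w g i j).im = 0 := by
  show (InfinitePlace.Completion.extensionEmbedding w
    (((g : Matrix (Fin 2) (Fin 2) (Adl K)) i j).1 w)).im = 0
  rw [← InfinitePlace.Completion.extensionEmbeddingOfIsReal_apply hw]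
  exact Complex.ofReal_im _

/-! ## 2. Elements with the same components away from `w` -/

/-- `g` and `g'` have the same components at all places different from `w`. -/
def SameAway166 (w : InfinitePlace K) (g g' : G K) : Prop :=
  (∀ u : InfinitePlace K, u ≠ w → infComp u g = infComp u g') ∧
    ∀ v : HeightOneSpectrum (𝓞 K), finComp v g = finComp v g'

theorem SameAway166.refl (w : InfinitePlace K) (g : G K) : SameAway166 w g g :=
  ⟨fun _ _ => rfl, fun _ => rfl⟩

theorem SameAway166.symm {w : InfinitePlace K} {g g' : G K} (h : SameAway166 w g g') :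
    SameAway166 w g' g :=
  ⟨fun u hu => (h.1 u hu).symm, fun v => (h.2 v).symm⟩

theorem SameAway166.trans {w : InfinitePlace K} {g g' g'' : G K} (h : SameAway166 w g g')
    (h' : SameAway166 w g' g'') : SameAway166 w g g'' :=
  ⟨fun u hu => (h.1 u hu).trans (h'.1 u hu), fun v => (h.2 v).trans (h'.2 v)⟩

theorem SameAway166.mul {w : InfinitePlace K} {a a' b b' : G K} (h : SameAway166 w a a')
    (h' : SameAway166 w b b') : SameAway166 w (a * b) (a' * b') :=
  ⟨fun u hu => by rw [infComp_mul166, infComp_mul166, h.1 u hu, h'.1 u hu],
    fun v => by rw [finComp_mul166, finComp_mul166, h.2 v, h'.2 v]⟩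

theorem sameAway_of_local166 {w : InfinitePlace K} {k : G K} (h : IsLocalAtInf w k) :
    SameAway166 w k 1 :=
  ⟨fun u hu => by rw [infComp_of_triv166 (h.1 u hu), infComp_one166],
    fun v => by rw [finComp_one166]; exact h.2 v⟩

theorem isLocal_of_sameAway166 {w : InfinitePlace K} {k : G K} (h : SameAway166 w k 1) :
    IsLocalAtInf w k := by
  refine ⟨fun u hu => ?_, fun v => ?_⟩
  · rw [trivAtInf_iff472]
    have h1 := h.1 u hu
    rw [infComp_one166, infComp_eq_map166] at h1
    funext i j
    have h2 := congrFun (congrFun h1 i) j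
    apply (InfinitePlace.Completion.extensionEmbedding u).injective
    refine h2.trans ?_
    by_cases hij : i = j
    · subst hij
      simp
    · simp [Matrix.one_apply_ne hij]
  · have h1 := h.2 v
    rw [finComp_one166] at h1
    exact h1

theorem isLocalAtInf_mul166 {w : InfinitePlace K} {g h : G K} (hg : IsLocalAtInf w g)
    (hh : IsLocalAtInf w h) : IsLocalAtInf w (g * h) := by
  apply isLocal_of_sameAway166
  have := (sameAway_of_local166 hg).mul (sameAway_of_local166 hh)
  rwa [mul_one] at this

theorem ext_of_sameAway166 {w : InfinitePlace K} {g g' : G K} (h : SameAway166 w g g')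
    (hw : infComp w g = infComp w g') : g = g' := by
  refine G_ext166 (fun u => ?_) h.2
  by_cases hu : u = w
  · subst hu
    exact hw
  · exact h.1 u hu

/-- Elements supported at `w` with the same component at `w` are equal. -/
theorem local_unique166 {w : InfinitePlace K} {g g' : G K} (hg : IsLocalAtInf w g)
    (hg' : IsLocalAtInf w g') (hw : infComp w g = infComp w g') : g = g' :=
  ext_of_sameAway166 ((sameAway_of_local166 hg).trans (sameAway_of_local166 hg').symm) hw

/-! ## 3. Construction of the elements supported at `w` -/

open Classical in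
/-- The matrix over the adeles with component `M` at `w` and `1` at the other places. -/
def locMat166 (w : InfinitePlace K) (M : Matrix (Fin 2) (Fin 2) w.Completion) :
    Matrix (Fin 2) (Fin 2) (Adl K) :=
  fun i j =>
    ((Function.update (fun u : InfinitePlace K => (1 : Matrix (Fin 2) (Fin 2) u.Completion) i j)
        w (M i j) : InfiniteAdeleRing K),
      (1 : Matrix (Fin 2) (Fin 2) (FiniteAdeleRing (𝓞 K) K)) i j)

open Classical in
theorem cInf_locMat_self166 (w : InfinitePlace K) (M : Matrix (Fin 2) (Fin 2) w.Completion) :
    (cInf472 w).mapMatrix (locMat166 w M) = M := by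
  funext i j
  show Function.update (fun u : InfinitePlace K => (1 : Matrix (Fin 2) (Fin 2) u.Completion) i j)
    w (M i j) w = M i j
  exact Function.update_self ..

open Classical in
theorem cInf_locMat_ne166 (w : InfinitePlace K) (M : Matrix (Fin 2) (Fin 2) w.Completion)
    {u : InfinitePlace K} (hu : u ≠ w) :
    (cInf472 u).mapMatrix (locMat166 w M) = 1 := by
  funext i j
  show Function.update (fun u : InfinitePlace K => (1 : Matrix (Fin 2) (Fin 2) u.Completion) i j)
    w (M i j) u = (1 : Matrix (Fin 2) (Fin 2) u.Completion) i j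
  exact Function.update_of_ne hu ..

theorem cFin_locMat166 (w : InfinitePlace K) (M : Matrix (Fin 2) (Fin 2) w.Completion)
    (v : HeightOneSpectrum (𝓞 K)) :
    (cFin472 v).mapMatrix (locMat166 w M) = 1 := by
  funext i j
  show ((1 : Matrix (Fin 2) (Fin 2) (FiniteAdeleRing (𝓞 K) K)) i j) v
    = (1 : Matrix (Fin 2) (Fin 2) (v.adicCompletion K)) i j
  exact one_apply_fin472 v i j

theorem locMat_mul166 (w : InfinitePlace K) (M N : Matrix (Fin 2) (Fin 2) w.Completion) :
    locMat166 w (M * N) = locMat166 (K := K) w M * locMat166 w N := by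
  apply adlMat_ext166
  · intro u
    rw [map_mul]
    by_cases hu : u = w
    · subst hu
      rw [cInf_locMat_self166, cInf_locMat_self166, cInf_locMat_self166]
    · rw [cInf_locMat_ne166 _ _ hu, cInf_locMat_ne166 _ _ hu, cInf_locMat_ne166 _ _ hu, mul_one]
  · intro v
    rw [map_mul, cFin_locMat166, cFin_locMat166, cFin_locMat166, mul_one]

theorem locMat_one166 (w : InfinitePlace K) : locMat166 (K := K) w 1 = 1 := by
  apply adlMat_ext166
  · intro u
    rw [map_one]
    by_cases hu : u = w
    · subst hu
      rw [cInf_locMat_self166]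
    · rw [cInf_locMat_ne166 _ _ hu]
  · intro v
    rw [map_one, cFin_locMat166]

/-- The element of `GL₂(𝔸_K)` supported at `w` with component `M`. -/
def locG166 (w : InfinitePlace K) (M N : Matrix (Fin 2) (Fin 2) w.Completion) (h1 : M * N = 1)
    (h2 : N * M = 1) : G K :=
  ⟨locMat166 w M, locMat166 w N, by rw [← locMat_mul166, h1, locMat_one166],
    by rw [← locMat_mul166, h2, locMat_one166]⟩

/-- **Existence of the elements supported at `w`.** -/
theorem exists_local166 (w : InfinitePlace K) (M : Matrix (Fin 2) (Fin 2) ℂ) (hdet : M.det ≠ 0)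
    (hreal : w.IsReal → ∀ i j, (M i j).im = 0) :
    ∃ g : G K, IsLocalAtInf w g ∧ infComp w g = M := by
  have hpre : ∀ i j, ∃ x : w.Completion,
      InfinitePlace.Completion.extensionEmbedding w x = M i j := by
    intro i j
    rcases InfinitePlace.isReal_or_isComplex w with hw | hw
    · refine ⟨(InfinitePlace.Completion.ringEquivRealOfIsReal hw).symm (M i j).re, ?_⟩
      rw [← InfinitePlace.Completion.extensionEmbeddingOfIsReal_apply hw]
      have h1 : InfinitePlace.Completion.extensionEmbeddingOfIsReal hw
          ((InfinitePlace.Completion.ringEquivRealOfIsReal hw).symm (M i j).re) = (M i j).re :=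
        (InfinitePlace.Completion.ringEquivRealOfIsReal hw).apply_symm_apply _
      rw [h1]
      apply Complex.ext
      · simp
      · simp [hreal hw i j]
    · exact InfinitePlace.Completion.surjective_extensionEmbedding_of_isComplex hw (M i j)
  choose M' hM' using hpre
  have hmap : (InfinitePlace.Completion.extensionEmbedding w).mapMatrix (Matrix.of M') = M := by
    funext i j
    exact hM' i j
  have hdet' : (Matrix.of M').det ≠ 0 := by
    intro h0
    apply hdet
    rw [← hmap, ← RingHom.map_det, h0, map_zero]
  have hu : IsUnit (Matrix.of M').det := IsUnit.mk0 _ hdet'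
  refine ⟨locG166 w (Matrix.of M') (Matrix.of M')⁻¹ (Matrix.mul_nonsing_inv _ hu)
    (Matrix.nonsing_inv_mul _ hu), ⟨fun u hu' => ?_, fun v => ?_⟩, ?_⟩
  · rw [trivAtInf_iff472]
    exact cInf_locMat_ne166 w _ hu'
  · show finComp v _ = 1
    rw [finComp_eq472]
    exact cFin_locMat166 w _ v
  · rw [infComp_eq_map166]
    show (InfinitePlace.Completion.extensionEmbedding w).mapMatrix
      ((cInf472 w).mapMatrix (locMat166 w (Matrix.of M'))) = M
    rw [cInf_locMat_self166, hmap]

/-! ## 4. The compact group at `w` -/

theorem isArchCompact_inv166 {w : InfinitePlace K} {k : G K} (hk : IsArchCompact w k) :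
    IsArchCompact w k⁻¹ := by
  obtain ⟨hloc, hu, hd⟩ := hk
  have hinv : (infComp w k)⁻¹ = (infComp w k)ᴴ := Matrix.inv_eq_right_inv hu
  refine ⟨isLocalAtInf_inv472 hloc, ?_, fun hw => ?_⟩
  · rw [infComp_inv472, hinv, Matrix.conjTranspose_conjTranspose]
    exact mul_eq_one_comm.1 hu
  · rw [infComp_inv472, Matrix.det_nonsing_inv, hd hw]
    simp

theorem isArchCompact_mul166 {w : InfinitePlace K} {k k' : G K} (hk : IsArchCompact w k)
    (hk' : IsArchCompact w k') : IsArchCompact w (k * k') := by
  obtain ⟨hloc, hu, hd⟩ := hk
  obtain ⟨hloc', hu', hd'⟩ := hk'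
  refine ⟨isLocalAtInf_mul166 hloc hloc', ?_, fun hw => ?_⟩
  · rw [infComp_mul166, Matrix.conjTranspose_mul]
    calc infComp w k * infComp w k' * ((infComp w k')ᴴ * (infComp w k)ᴴ)
        = infComp w k * (infComp w k' * (infComp w k')ᴴ) * (infComp w k)ᴴ := by
          simp only [mul_assoc]
      _ = 1 := by rw [hu', mul_one, hu]
  · rw [infComp_mul166, Matrix.det_mul, hd hw, hd' hw, mul_one]

/-- The element supported at `w` with a given unitary component (of determinant one at a real
place) belongs to the compact group. -/
theorem exists_archCompact166 (w : InfinitePlace K) (k : Matrix (Fin 2) (Fin 2) ℂ)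
    (hu : k * kᴴ = 1) (hreal : w.IsReal → (∀ i j, (k i j).im = 0) ∧ k.det = 1) :
    ∃ g : G K, IsArchCompact w g ∧ infComp w g = k := by
  have hdet : k.det ≠ 0 := by
    have h := congrArg Matrix.det hu
    rw [Matrix.det_mul, Matrix.det_one] at h
    exact left_ne_zero_of_mul_eq_one h
  obtain ⟨g, hloc, hg⟩ := exists_local166 w k hdet (fun hw => (hreal hw).1)
  exact ⟨g, ⟨hloc, by rw [hg]; exact hu, fun hw => by rw [hg]; exact (hreal hw).2⟩, hg⟩

end Fermat.Agent.LT.T2.H166

end
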