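import Mathlib

/-!
# Row LT, tower T2 -- tool (helper166, OFF-MAIN): characters of `U(2)` are trivial on `SU(2)`

Mathlib only.  `sigma_eq_one166`: a function `σ` on the `2 × 2` complex matrices which is
multiplicative and nowhere zero on the unitary matrices takes the value `1` at every unitary
matrix of determinant `1`.

Proof.  If `y` and `c` are unitary with `c y c⁻¹ = y⁻¹` then `σ(y)² = 1`, so `σ(y²) = 1`.  This
applies to `diag(z, z̄) = diag(μ, μ̄)²` (`c = [[0, 1], [-1, 0]]`) and to the real rotations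
`[[c, -s], [s, c]]` (`c = diag(1, -1)`), and every element of `SU(2)` is a product
`diag(z₁, z̄₁) · rotation · diag(z₂, z̄₂)`.
-/

set_option autoImplicit false

open scoped Matrix ComplexConjugate

noncomputable section

namespace Fermat.Agent.LT.T2.H166

/-- `diag(z, z̄)`. -/
def dg166 (z : ℂ) : Matrix (Fin 2) (Fin 2) ℂ := !![z, 0; 0, conj z]

/-- The real rotation `[[c, -s], [s, c]]`. -/
def rt166 (c s : ℝ) : Matrix (Fin 2) (Fin 2) ℂ := !![(c : ℂ), -(s : ℂ); (s : ℂ), (c : ℂ)]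

/-- `[[0, 1], [-1, 0]]`. -/
def wz166 : Matrix (Fin 2) (Fin 2) ℂ := !![0, 1; -1, 0]

/-- `diag(1, -1)`. -/
def sz166 : Matrix (Fin 2) (Fin 2) ℂ := !![1, 0; 0, -1]

theorem dg_unitary166 (z : ℂ) (hz : z * conj z = 1) : dg166 z * (dg166 z)ᴴ = 1 := by
  have hz' : conj z * z = 1 := by rw [mul_comm]; exact hz
  ext i j
  fin_cases i <;> fin_cases j <;>
    simp [dg166, Matrix.mul_apply, Fin.sum_univ_two, Matrix.conjTranspose_apply, hz, hz']

theorem rt_unitary166 (c s : ℝ) (h : c ^ 2 + s ^ 2 = 1) : rt166 c s * (rt166 c s)ᴴ = 1 := by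
  have hC : (c : ℂ) * c + (s : ℂ) * s = 1 := by
    have := congrArg (fun x : ℝ => (x : ℂ)) h
    simp only [Complex.ofReal_add, Complex.ofReal_pow, Complex.ofReal_one] at this
    linear_combination this
  ext i j
  fin_cases i <;> fin_cases j <;>
    simp [rt166, Matrix.mul_apply, Fin.sum_univ_two, Matrix.conjTranspose_apply]
  · linear_combination hC
  · ring
  · ring
  · linear_combination hC

theorem wz_unitary166 : wz166 * wz166ᴴ = 1 := by
  ext i j
  fin_cases i <;> fin_cases j <;>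
    simp [wz166, Matrix.mul_apply, Fin.sum_univ_two, Matrix.conjTranspose_apply]

theorem sz_unitary166 : sz166 * sz166ᴴ = 1 := by
  ext i j
  fin_cases i <;> fin_cases j <;>
    simp [sz166, Matrix.mul_apply, Fin.sum_univ_two, Matrix.conjTranspose_apply]

theorem dg_mul166 (z z' : ℂ) : dg166 (z * z') = dg166 z * dg166 z' := by
  ext i j
  fin_cases i <;> fin_cases j <;>
    simp [dg166, Matrix.mul_apply, Fin.sum_univ_two]

theorem wz_dg166 (z : ℂ) : wz166 * dg166 z * wz166ᴴ = (dg166 z)ᴴ := by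
  ext i j
  fin_cases i <;> fin_cases j <;>
    simp [dg166, wz166, Matrix.mul_apply, Fin.sum_univ_two, Matrix.conjTranspose_apply]

theorem rt_mul166 (c s c' s' : ℝ) :
    rt166 c s * rt166 c' s' = rt166 (c * c' - s * s') (c * s' + s * c') := by
  ext i j
  fin_cases i <;> fin_cases j <;>
    simp [rt166, Matrix.mul_apply, Fin.sum_univ_two] <;> ring

theorem sz_rt166 (c s : ℝ) : sz166 * rt166 c s * sz166ᴴ = (rt166 c s)ᴴ := by
  ext i j
  fin_cases i <;> fin_cases j <;>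
    simp [rt166, sz166, Matrix.mul_apply, Fin.sum_univ_two, Matrix.conjTranspose_apply]

/-! ## Unitary matrices -/

theorem unitary_mul166 {x y : Matrix (Fin 2) (Fin 2) ℂ} (hx : x * xᴴ = 1) (hy : y * yᴴ = 1) :
    (x * y) * (x * y)ᴴ = 1 := by
  rw [Matrix.conjTranspose_mul]
  calc x * y * (yᴴ * xᴴ) = x * (y * yᴴ) * xᴴ := by simp only [mul_assoc]
    _ = 1 := by rw [hy, mul_one, hx]

theorem unitary_star166 {x : Matrix (Fin 2) (Fin 2) ℂ} (hx : x * xᴴ = 1) : xᴴ * xᴴᴴ = 1 := by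
  rw [Matrix.conjTranspose_conjTranspose]
  exact mul_eq_one_comm.mp hx

/-- The shape of the elements of `SU(2)`. -/
theorem su2_form166 (m : Matrix (Fin 2) (Fin 2) ℂ) (hu : m * mᴴ = 1) (hd : m.det = 1) :
    m 1 1 = conj (m 0 0) ∧ m 0 1 = -conj (m 1 0) := by
  have hinv : m⁻¹ = mᴴ := Matrix.inv_eq_right_inv hu
  have hadj : m⁻¹ = m.adjugate := by
    rw [Matrix.inv_def, hd]
    simp
  have h : mᴴ = m.adjugate := hinv.symm.trans hadj
  rw [Matrix.adjugate_fin_two] at h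
  have h00 := congrFun (congrFun h 0) 0
  have h01 := congrFun (congrFun h 0) 1
  simp only [Matrix.conjTranspose_apply, Matrix.of_apply, Matrix.cons_val', Matrix.cons_val_zero,
    Matrix.cons_val_one, Matrix.cons_val_fin_one] at h00 h01
  refine ⟨h00.symm, ?_⟩
  have h01' : star (m 1 0) = -m 0 1 := h01
  have e : conj (m 1 0) = star (m 1 0) := rfl
  rw [e, h01', neg_neg]

/-! ## Square roots on the unit circle -/

theorem exists_sqrt_circle166 (z : ℂ) (hz : z * conj z = 1) :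
    ∃ μ : ℂ, μ * conj μ = 1 ∧ μ * μ = z := by
  have hn : ‖z‖ = 1 := by
    have h1 : ((‖z‖ ^ 2 : ℝ) : ℂ) = 1 := by
      rw [← hz, Complex.mul_conj, Complex.normSq_eq_norm_sq]
    have h2 : ‖z‖ ^ 2 = 1 := by exact_mod_cast h1
    have h3 : (0 : ℝ) ≤ ‖z‖ := norm_nonneg z
    nlinarith
  refine ⟨Complex.exp (((Complex.arg z / 2 : ℝ) : ℂ) * Complex.I), ?_, ?_⟩
  · have hc : conj (((Complex.arg z / 2 : ℝ) : ℂ) * Complex.I)
        = -(((Complex.arg z / 2 : ℝ) : ℂ) * Complex.I) := by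
      rw [map_mul, Complex.conj_ofReal, Complex.conj_I]
      ring
    rw [← Complex.exp_conj, ← Complex.exp_add, hc, add_neg_cancel, Complex.exp_zero]
  · rw [← Complex.exp_add]
    have h : (((Complex.arg z / 2 : ℝ) : ℂ) * Complex.I
        + ((Complex.arg z / 2 : ℝ) : ℂ) * Complex.I) = (Complex.arg z : ℂ) * Complex.I := by
      push_cast
      ring
    rw [h]
    have h' := Complex.norm_mul_exp_arg_mul_I z
    rw [hn] at h'
    simpa using h'

theorem exists_sqrt_rot166 (c s : ℝ) (h : c ^ 2 + s ^ 2 = 1) :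
    ∃ c' s' : ℝ, c' ^ 2 + s' ^ 2 = 1 ∧ c = c' * c' - s' * s' ∧ s = c' * s' + s' * c' := by
  have hz : (⟨c, s⟩ : ℂ) * conj (⟨c, s⟩ : ℂ) = 1 := by
    apply Complex.ext
    · simp
      nlinarith
    · simp
      ring
  obtain ⟨μ, hμ, hμ2⟩ := exists_sqrt_circle166 _ hz
  refine ⟨μ.re, μ.im, ?_, ?_, ?_⟩
  · have := congrArg Complex.re hμ
    simp at this
    nlinarith
  · have := congrArg Complex.re hμ2
    simp at this
    linarith
  · have := congrArg Complex.im hμ2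
    simp at this
    linarith

/-- Every complex number is a phase times its norm. -/
theorem exists_phase166 (a : ℂ) : ∃ p : ℂ, p * conj p = 1 ∧ a = p * ((‖a‖ : ℝ) : ℂ) := by
  by_cases ha : a = 0
  · exact ⟨1, by simp, by simp [ha]⟩
  · have hn : (‖a‖ : ℂ) ≠ 0 := by
      exact_mod_cast (norm_ne_zero_iff.mpr ha)
    refine ⟨a / ((‖a‖ : ℝ) : ℂ), ?_, ?_⟩
    · rw [map_div₀, Complex.conj_ofReal, div_mul_div_comm, Complex.mul_conj,
        Complex.normSq_eq_norm_sq]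
      push_cast
      field_simp
    · field_simp

/-! ## The decomposition of `SU(2)` -/

theorem su2_decomp166 (m : Matrix (Fin 2) (Fin 2) ℂ) (hu : m * mᴴ = 1) (hd : m.det = 1) :
    ∃ (z₁ z₂ : ℂ) (c s : ℝ), z₁ * conj z₁ = 1 ∧ z₂ * conj z₂ = 1 ∧ c ^ 2 + s ^ 2 = 1 ∧
      m = dg166 z₁ * rt166 c s * dg166 z₂ := by
  obtain ⟨h11, h01⟩ := su2_form166 m hu hd
  obtain ⟨pa, hpa, ha⟩ := exists_phase166 (m 0 0)
  obtain ⟨pb, hpb, hb⟩ := exists_phase166 (m 1 0)
  have hpab : (pa * pb) * conj (pa * pb) = 1 := by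
    rw [map_mul]
    calc pa * pb * (conj pa * conj pb) = (pa * conj pa) * (pb * conj pb) := by ring
      _ = 1 := by rw [hpa, hpb, mul_one]
  obtain ⟨ν, hν, hν2⟩ := exists_sqrt_circle166 (pa * pb) hpab
  have hν2c : conj ν * conj ν = conj pa * conj pb := by
    rw [← map_mul, ← map_mul, hν2]
  have hcs : ‖m 0 0‖ ^ 2 + ‖m 1 0‖ ^ 2 = 1 := by
    have h1 : m 0 0 * m 1 1 - m 0 1 * m 1 0 = 1 := by
      rw [← Matrix.det_fin_two]
      exact hd
    rw [h11, h01] at h1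
    have h2 : (((‖m 0 0‖ ^ 2 + ‖m 1 0‖ ^ 2 : ℝ)) : ℂ) = 1 := by
      rw [← Complex.normSq_eq_norm_sq, ← Complex.normSq_eq_norm_sq, Complex.ofReal_add,
        ← Complex.mul_conj, ← Complex.mul_conj]
      linear_combination h1
    exact_mod_cast h2
  refine ⟨pa * conj ν, ν, ‖m 0 0‖, ‖m 1 0‖, ?_, hν, hcs, ?_⟩
  · rw [map_mul, Complex.conj_conj]
    calc pa * conj ν * (conj pa * ν) = (pa * conj pa) * (ν * conj ν) := by ring
      _ = 1 := by rw [hpa, hν, mul_one]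
  · have hνc : conj ν * ν = 1 := by rw [mul_comm]; exact hν
    have hpac : conj pa * pa = 1 := by rw [mul_comm]; exact hpa
    have hac : conj (m 0 0) = conj pa * ((‖m 0 0‖ : ℝ) : ℂ) := by
      conv_lhs => rw [ha]
      rw [map_mul, Complex.conj_ofReal]
    have hbc : conj (m 1 0) = conj pb * ((‖m 1 0‖ : ℝ) : ℂ) := by
      conv_lhs => rw [hb]
      rw [map_mul, Complex.conj_ofReal]
    ext i j
    fin_cases i <;> fin_cases j
    · simp only [dg166, rt166, Matrix.mul_apply, Fin.sum_univ_two, Fin.zero_eta, Fin.isValue,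
        Matrix.of_apply, Matrix.cons_val', Matrix.cons_val_zero, Matrix.cons_val_one,
        Matrix.cons_val_fin_one]
      linear_combination ha - pa * ((‖m 0 0‖ : ℝ) : ℂ) * hνc
    · simp only [dg166, rt166, Matrix.mul_apply, Fin.sum_univ_two, Fin.zero_eta, Fin.mk_one,
        Fin.isValue, Matrix.of_apply, Matrix.cons_val', Matrix.cons_val_zero, Matrix.cons_val_one,
        Matrix.cons_val_fin_one, map_mul, Complex.conj_conj]
      rw [h01, hbc]
      linear_combination (pa * ((‖m 1 0‖ : ℝ) : ℂ)) * hν2c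
        + (conj pb * ((‖m 1 0‖ : ℝ) : ℂ)) * hpa
    · simp only [dg166, rt166, Matrix.mul_apply, Fin.sum_univ_two, Fin.zero_eta, Fin.mk_one,
        Fin.isValue, Matrix.of_apply, Matrix.cons_val', Matrix.cons_val_zero, Matrix.cons_val_one,
        Matrix.cons_val_fin_one, map_mul, Complex.conj_conj]
      linear_combination hb - (conj pa * ((‖m 1 0‖ : ℝ) : ℂ)) * hν2
        - (pb * ((‖m 1 0‖ : ℝ) : ℂ)) * hpac
    · simp only [dg166, rt166, Matrix.mul_apply, Fin.sum_univ_two, Fin.mk_one,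
        Fin.isValue, Matrix.of_apply, Matrix.cons_val', Matrix.cons_val_zero, Matrix.cons_val_one,
        Matrix.cons_val_fin_one, map_mul, Complex.conj_conj]
      rw [h11, hac]
      linear_combination - (conj pa * ((‖m 0 0‖ : ℝ) : ℂ)) * hν

/-! ## Characters -/

section Char

variable (σ : Matrix (Fin 2) (Fin 2) ℂ → ℂ)

theorem sigma_one166
    (hmul : ∀ x y : Matrix (Fin 2) (Fin 2) ℂ, x * xᴴ = 1 → y * yᴴ = 1 → σ (x * y) = σ x * σ y)
    (hne : ∀ x : Matrix (Fin 2) (Fin 2) ℂ, x * xᴴ = 1 → σ x ≠ 0) : σ 1 = 1 := by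
  have h1 : (1 : Matrix (Fin 2) (Fin 2) ℂ) * 1ᴴ = 1 := by simp
  have h := hmul 1 1 h1 h1
  rw [mul_one] at h
  have h0 := hne 1 h1
  have h' : σ 1 * 1 = σ 1 * σ 1 := by rw [mul_one]; exact h
  exact (mul_left_cancel₀ h0 h').symm

/-- If `c y c⁻¹ = y⁻¹` then `σ(y²) = 1`. -/
theorem sigma_sq166
    (hmul : ∀ x y : Matrix (Fin 2) (Fin 2) ℂ, x * xᴴ = 1 → y * yᴴ = 1 → σ (x * y) = σ x * σ y)
    (hne : ∀ x : Matrix (Fin 2) (Fin 2) ℂ, x * xᴴ = 1 → σ x ≠ 0)
    {y c : Matrix (Fin 2) (Fin 2) ℂ} (hy : y * yᴴ = 1) (hc : c * cᴴ = 1)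
    (hcy : c * y * cᴴ = yᴴ) : σ (y * y) = 1 := by
  have h1 := sigma_one166 σ hmul hne
  have hys : σ y * σ yᴴ = 1 := by rw [← hmul y yᴴ hy (unitary_star166 hy), hy, h1]
  have hcs : σ c * σ cᴴ = 1 := by rw [← hmul c cᴴ hc (unitary_star166 hc), hc, h1]
  have h2 : σ yᴴ = σ y := by
    rw [← hcy, hmul (c * y) cᴴ (unitary_mul166 hc hy) (unitary_star166 hc), hmul c y hc hy]
    calc σ c * σ y * σ cᴴ = σ y * (σ c * σ cᴴ) := by ring
      _ = σ y := by rw [hcs, mul_one]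
  rw [hmul y y hy hy]
  rw [h2] at hys
  exact hys

/-- **A character of `U(2)` is trivial on `SU(2)`.** -/
theorem sigma_eq_one166
    (hmul : ∀ x y : Matrix (Fin 2) (Fin 2) ℂ, x * xᴴ = 1 → y * yᴴ = 1 → σ (x * y) = σ x * σ y)
    (hne : ∀ x : Matrix (Fin 2) (Fin 2) ℂ, x * xᴴ = 1 → σ x ≠ 0)
    (m : Matrix (Fin 2) (Fin 2) ℂ) (hu : m * mᴴ = 1) (hd : m.det = 1) : σ m = 1 := by
  obtain ⟨z₁, z₂, c, s, h1, h2, hcs, rfl⟩ := su2_decomp166 m hu hd
  have hD : ∀ z : ℂ, z * conj z = 1 → σ (dg166 z) = 1 := by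
    intro z hz
    obtain ⟨μ, hμ, rfl⟩ := exists_sqrt_circle166 z hz
    rw [dg_mul166]
    exact sigma_sq166 σ hmul hne (dg_unitary166 μ hμ) wz_unitary166 (wz_dg166 μ)
  have hR : ∀ c s : ℝ, c ^ 2 + s ^ 2 = 1 → σ (rt166 c s) = 1 := by
    intro c s hcs
    obtain ⟨c', s', h', hc, hs⟩ := exists_sqrt_rot166 c s hcs
    rw [hc, hs, ← rt_mul166]
    exact sigma_sq166 σ hmul hne (rt_unitary166 c' s' h') sz_unitary166 (sz_rt166 c' s')
  rw [hmul _ _ (unitary_mul166 (dg_unitary166 z₁ h1) (rt_unitary166 c s hcs))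
      (dg_unitary166 z₂ h2),
    hmul _ _ (dg_unitary166 z₁ h1) (rt_unitary166 c s hcs), hD z₁ h1, hD z₂ h2, hR c s hcs]
  simp

end Char

end Fermat.Agent.LT.T2.H166

end
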