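import Mathlib
import Fermat.Agent.LT.T2.H291.OpsSpecT
import Fermat.Agent.LT.T2.H166.LocalAlg
import Fermat.Agent.LT.T2.H166.SU2Comm

/-!
# Row LT, tower T2, tool T2.27.33 `SubTypeSU2T291` (helper166, OFF-MAIN)

`subTypeSU2T166 (K) : H291.SubTypeSU2T291 K` -- a `K_∞`-type `τ` is trivial on the elements of
`SU(2)` at a complex place.

Proof.  At a complex place `w` the group `K_w = {k | IsArchCompact w k}` is `U(2)`: the element
supported at `w` with a given unitary component exists and is unique (`exists_archCompact166`,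
`local_unique166`, copies of helper878's lemmas).  So `σ(x) = τ(k_x)` is multiplicative and of
absolute value `1` on the unitary matrices, and `sigma_eq_one166` (`SU2Comm.lean`, Mathlib only)
applies.  Only `IsKType.norm_one` and `IsKType.mul` are used (not the continuity).
-/

set_option autoImplicit false

open IsDedekindDomain NumberField
open scoped Matrix

noncomputable section

namespace Fermat.Agent.LT.T2.H166

open Fermat.Agent.LT.H556.A0
open Fermat.Agent.LT.T2

/-- **T2.27.33 `SubTypeSU2T291`.** -/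
theorem subTypeSU2T166 (K : Type) [Field K] [NumberField K] : H291.SubTypeSU2T291 K := by
  intro τ hτ w hw k hk hdet
  have hnr : ¬ w.IsReal := InfinitePlace.not_isReal_iff_isComplex.mpr hw
  have hex : ∀ x : Matrix (Fin 2) (Fin 2) ℂ, x * xᴴ = 1 →
      ∃ g : G K, IsArchCompact w g ∧ infComp w g = x :=
    fun x hx => exists_archCompact166 w x hx (fun h => absurd h hnr)
  classical
  obtain ⟨σ, hσdef⟩ : ∃ σ : Matrix (Fin 2) (Fin 2) ℂ → ℂ,
      ∀ x, ∀ hx : x * xᴴ = 1, σ x = τ (Classical.choose (hex x hx)) :=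
    ⟨fun x => if hx : x * xᴴ = 1 then τ (Classical.choose (hex x hx)) else 0,
      fun x hx => dif_pos hx⟩
  have hσ : ∀ g : G K, IsArchCompact w g → σ (infComp w g) = τ g := by
    intro g hg
    have hx : infComp w g * (infComp w g)ᴴ = 1 := hg.2.1
    rw [hσdef _ hx]
    have hsp := Classical.choose_spec (hex _ hx)
    rw [local_unique166 hsp.1.1 hg.1 hsp.2]
  have hmul : ∀ x y : Matrix (Fin 2) (Fin 2) ℂ, x * xᴴ = 1 → y * yᴴ = 1 →
      σ (x * y) = σ x * σ y := by
    intro x y hx hy
    obtain ⟨gx, hgx, rfl⟩ := hex x hx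
    obtain ⟨gy, hgy, rfl⟩ := hex y hy
    rw [← infComp_mul166, hσ _ (isArchCompact_mul166 hgx hgy), hσ _ hgx, hσ _ hgy]
    exact hτ.mul w gx gy hgx hgy
  have hne : ∀ x : Matrix (Fin 2) (Fin 2) ℂ, x * xᴴ = 1 → σ x ≠ 0 := by
    intro x hx
    obtain ⟨gx, hgx, rfl⟩ := hex x hx
    rw [hσ _ hgx]
    intro h0
    have h1 := hτ.norm_one w gx hgx
    rw [h0, norm_zero] at h1
    exact zero_ne_one h1
  rw [← hσ k hk]
  exact sigma_eq_one166 σ hmul hne _ hk.2.1 hdet

end Fermat.Agent.LT.T2.H166

end
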